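/-
S59 PRE-WORK / E7 DICT(W), curve side, file 3 (helper17): **the `p`-adic Tate module of an integral
Weierstrass curve `W/ℤ`, `Δ ≠ 0`, as a Prelude `GaloisRepAdic ℤ_[p]`**, and its first properties.

`rhoW W p hΔ := tateRep (EQb W).Point p _ _` (helper64 `GE7/TateAbs`), `V = Tp (EQb W).Point p`,
`val (ρ σ x) n = σ • val x n` (rfl).

* `card_lvl`, `levelFinite`           : the two inputs of `tateRep` (EC-TORS, `galEnd_level`);
* `rhoW_frob_rel`                      : `ρ(τ)² − a_ℓ(W) ρ(τ) + ℓ = 0`, `τ` a Frobenius lift at a good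
                                         `ℓ ≠ p` (`GE/Top/ECFinal.frobRel`);
* `rhoW_isUnramifiedAt`                : frozen `IsUnramifiedAt q` at a good `q ≠ p`;
* `rhoW_sub_one_sq`, `rhoW_isUnipotentOnInertiaAt` : frozen `IsUnipotentOnInertiaAt q` at EVERY
                                         `q ≠ p` (semistable `W`);
* `rhoW_not_resScalar`                 : `W[p]` irreducible ⟹ some `ρ(σ₀)` is not scalar mod `p`;
* `rhoW_detIsCyclotomic`, `rhoW_charpoly_frob`, `rhoW_trace_frob` : frozen `DetIsCyclotomic p` and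
  `charpoly ρ(Frob_ℓ) = X² − a_ℓ(W) X + ℓ` (no Weil pairing: helper21 `GE7/DetQuad`).
-/
import Fermat.Agent.GE7.TateAbs.Gal
import Fermat.Agent.GE7.DetQuad.Main
import Fermat.Agent.GE.Top.ECFinal
import Fermat.Agent.GB.A.A6.ECDet
import Fermat.Prelude.Def_GaloisRep_LocalConditions

set_option autoImplicit false

open scoped WeierstrassCurve.Affine
open Fermat.Agent.Common_helper32 PadicInt IsLocalRing Polynomial

namespace Fermat.Agent.GE7.DictW.Inst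

open WeierstrassCurve Fermat.Agent.GE.ECAssembly Fermat.Agent.GE7.TateAbs

variable (W : WeierstrassCurve ℤ) (p : ℕ) [hp : Fact p.Prime]

/-! ### the two inputs of `tateRep` -/

theorem card_lvl (hΔ : W.Δ ≠ 0) (n : ℕ) :
    Nat.card (lvl (EQb W).Point p n) = p ^ (2 * n) := by
  have h := Fermat.Agent.GE.Tors.card_torsion (eqb_Δ_ne_zero W hΔ) (p ^ n)
    (Nat.one_le_pow _ _ hp.out.pos)
  rw [pow_mul', ← h]
  exact Nat.card_congr (Equiv.subtypeEquivRight fun P => mem_lvl)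

theorem levelFinite (hΔ : W.Δ ≠ 0) : LevelFinite (EQb W).Point p := by
  intro n
  obtain ⟨L, hL, hfix⟩ := galEnd_level W hΔ (p ^ n) (Nat.one_le_pow _ _ hp.out.pos)
  refine ⟨L, hL, fun σ hσ P hP => ?_⟩
  have hmem : P ∈ Submodule.torsionBy ℤ (EQb W).Point ((p ^ n : ℕ) : ℤ) :=
    (mem_TN_iff W (p ^ n) P).mpr (mem_lvl.mp hP)
  have h1 := hfix σ hσ
  have h2 := congrArg (fun f : AddMonoid.End (TN W (p ^ n)) =>
    ((f ⟨P, hmem⟩ : TN W (p ^ n)) : (EQb W).Point)) h1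
  exact h2

/-- **the `p`-adic Tate module `T_p(W)` as a Prelude `GaloisRepAdic ℤ_[p]`.** -/
noncomputable def rhoW (hΔ : W.Δ ≠ 0) : GaloisRepAdic ℤ_[p] :=
  tateRep (EQb W).Point p (card_lvl W p hΔ) (levelFinite W p hΔ)

variable {W p}

theorem rhoW_V (hΔ : W.Δ ≠ 0) : (rhoW W p hΔ).V = Tp (EQb W).Point p := rfl

theorem rhoW_ρ (hΔ : W.Δ ≠ 0) (σ : GQ) : (rhoW W p hΔ).ρ σ = galRho (EQb W).Point p σ := rfl

@[simp] theorem val_rhoW (hΔ : W.Δ ≠ 0) (σ : GQ) (x : Tp (EQb W).Point p) (n : ℕ) :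
    val ((rhoW W p hΔ).ρ σ x) n = σ • val x n := rfl

/-! ### the Frobenius relation -/

/-- **Eichler–Shimura on `T_p(W)`**: `ρ(τ)² − a_ℓ(W) ρ(τ) + ℓ = 0` for a Frobenius lift `τ` at a good
prime `ℓ ≠ p`. -/
theorem rhoW_frob_rel (hΔ : W.Δ ≠ 0) {ℓ : ℕ} (hℓ : ℓ.Prime) (hℓp : ℓ ≠ p)
    (hgood : W.IsGoodPrimeFor ℓ) (A : ValuationSubring Qb) (hA : A.LiesOverPrime ℓ) (τ : GQ)
    (hτ : A.IsFrobeniusAt τ ℓ) :
    (rhoW W p hΔ).ρ τ * (rhoW W p hΔ).ρ τ - ((W.apOfModel ℓ : ℤ) : ℤ_[p]) • (rhoW W p hΔ).ρ τ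
      + ((ℓ : ℕ) : ℤ_[p]) • (1 : Module.End ℤ_[p] (rhoW W p hΔ).V) = 0 := by
  refine LinearMap.ext fun x => ?_
  have h := actRho_quadratic (G := GQ) (E := (EQb W).Point) (p := p) (τ := τ)
    (W.apOfModel ℓ) ((ℓ : ℕ) : ℤ)
    (fun n P hP => Fermat.Agent.GE.ECFinal.frobRel W hp.out n ℓ hℓ hℓp hgood A hA τ hτ P
      (mem_lvl.mp hP)) x
  rw [Int.cast_natCast] at h
  exact h

/-- the same with the bad set `ecBad W p = insert p (primeFactors Δ)`: the binder `hquad` of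
`GE7/DetQuad` and `hrel` of `GE7/DictW/RelCharpoly`, with `t ℓ := a_ℓ(W)`. -/
theorem rhoW_hquad (hΔ : W.Δ ≠ 0) :
    ∀ ℓ : ℕ, ℓ.Prime → ℓ ∉ Fermat.Agent.GE.Top.ecBad W p → ∀ A : ValuationSubring Qb,
      A.LiesOverPrime ℓ → ∀ τ : GQ, A.IsFrobeniusAt τ ℓ →
        (rhoW W p hΔ).ρ τ * (rhoW W p hΔ).ρ τ
          - (fun ℓ : ℕ => ((W.apOfModel ℓ : ℤ) : ℤ_[p])) ℓ • (rhoW W p hΔ).ρ τ
          + ((ℓ : ℕ) : ℤ_[p]) • (1 : Module.End ℤ_[p] (rhoW W p hΔ).V) = 0 := by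
  intro ℓ hℓ hℓB A hA τ hτ
  obtain ⟨hℓp, hgood⟩ := good_of_not_mem W hΔ hℓ hℓB
  exact rhoW_frob_rel hΔ hℓ hℓp hgood A hA τ hτ

/-! ### inertia away from `p` -/

/-- frozen `IsUnramifiedAt q` at a good prime `q ≠ p`. -/
theorem rhoW_isUnramifiedAt (hΔ : W.Δ ≠ 0) {q : ℕ} (hq : q.Prime) (hqp : q ≠ p)
    (hgood : W.IsGoodPrimeFor q) : (rhoW W p hΔ).IsUnramifiedAt q := by
  intro P hP σ hσ
  exact tateRep_ρ_eq_one _ _ fun n Q hQ =>
    Fermat.Agent.GE.ECFinal.goodInertia W hp.out n q hq hqp hgood P hP σ hσ Q (mem_lvl.mp hQ)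

/-- `(ρ(σ) − 1)² = 0` for `σ` in an inertia group at ANY prime `q ≠ p` (semistable `W`). -/
theorem rhoW_sub_one_sq (hΔ : W.Δ ≠ 0) (hss : W.IsSemistableModel) {q : ℕ} (hq : q.Prime)
    (hqp : q ≠ p) (P : ValuationSubring Qb) (hP : P.LiesOverPrime q) (σ : GQ)
    (hσ : σ ∈ P.inertiaSubgroupIn ℚ) :
    ((rhoW W p hΔ).ρ σ - 1) * ((rhoW W p hΔ).ρ σ - 1) = 0 :=
  actRho_sub_one_sq (G := GQ) (E := (EQb W).Point) (p := p) fun n Q hQ =>
    Fermat.Agent.GE.ECFinal.unipInertia W hss hΔ hp.out n q hq hqp P hP σ hσ Q (mem_lvl.mp hQ)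

/-- rank two over a domain: `(f − 1)² = 0 ⟹ charpoly f = (X − 1)²`. -/
theorem charpoly_of_sub_one_sq {R : Type*} [CommRing R] [IsDomain R] {M : Type*} [AddCommGroup M]
    [Module R M] [Module.Free R M] [Module.Finite R M] (hr : Module.finrank R M = 2)
    (f : Module.End R M) (h : (f - 1) * (f - 1) = 0) : LinearMap.charpoly f = (X - 1) ^ 2 := by
  have hnil : IsNilpotent (f - 1) := ⟨2, by rw [pow_two, h]⟩
  have h1 := IsNilpotent.charpoly_eq_X_pow_finrank hnil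
  rw [hr] at h1
  have h2 := LinearMap.charpoly_sub_smul f (1 : R)
  rw [one_smul, h1] at h2
  have h3 := congrArg (fun q : R[X] => q.comp (X - C 1)) h2
  simp only [Polynomial.comp_assoc] at h3
  have h4 : (X + C (1 : R)).comp (X - C 1) = X := by
    simp
  rw [h4, Polynomial.comp_X] at h3
  rw [← h3]
  simp

/-- frozen `IsUnipotentOnInertiaAt q` at EVERY prime `q ≠ p` (semistable `W`). -/
theorem rhoW_isUnipotentOnInertiaAt (hΔ : W.Δ ≠ 0) (hss : W.IsSemistableModel) {q : ℕ}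
    (hq : q.Prime) (hqp : q ≠ p) : (rhoW W p hΔ).IsUnipotentOnInertiaAt q := by
  intro P hP σ hσ
  exact charpoly_of_sub_one_sq (rhoW W p hΔ).finrank_eq _
    (rhoW_sub_one_sq hΔ hss hq hqp P hP σ hσ)

/-! ### the residual image is not scalar -/

theorem card_torsionBy_p (hΔ : W.Δ ≠ 0) :
    Nat.card (Submodule.torsionBy ℤ (EQb W).Point (p : ℤ)) = p ^ 2 :=
  Fermat.Agent.GE.Tors.card_torsionBy (eqb_Δ_ne_zero W hΔ) p hp.out.one_le

/-- `W[p]` irreducible ⟹ some `ρ(σ₀)` is not a scalar modulo `p` (the binder `hns` of helper21's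
`GE7/DetQuad`). -/
theorem rhoW_not_resScalar (hΔ : W.Δ ≠ 0) (hirr : W.ModRepIsIrreducible p) :
    ∃ σ₀ : GQ, ¬ ∃ c : ℤ_[p], ∀ v : (rhoW W p hΔ).V,
      (rhoW W p hΔ).ρ σ₀ v - c • v ∈
        maximalIdeal ℤ_[p] • (⊤ : Submodule ℤ_[p] (rhoW W p hΔ).V) := by
  have hcard := card_torsionBy_p (p := p) hΔ
  obtain ⟨x, hx⟩ : ∃ x : Fermat.Agent.GB.A.A6.ECDet.Tp W p, x ≠ 0 := by
    have := hirr.1
    exact exists_ne 0
  obtain ⟨g, hg⟩ := Fermat.Agent.GB.A.A6.ECDet.exists_not_mem_span hcard hirr hx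
  refine ⟨g, fun ⟨c, hc⟩ => hg ?_⟩
  have hx1 : (x : (EQb W).Point) ∈ lvl (EQb W).Point p 1 := by
    rw [mem_lvl, pow_one]
    have := x.2
    rwa [Submodule.mem_torsionBy_iff, natCast_zsmul] at this
  obtain ⟨v, hv⟩ := proj_surjective_of_card (card_lvl W p hΔ) 1 ⟨(x : (EQb W).Point), hx1⟩
  have hv1 : val v 1 = (x : (EQb W).Point) := by rw [← coe_proj, hv]
  have h1 := hc v
  rw [← pow_one (maximalIdeal ℤ_[p])] at h1
  have h2 := (mem_pow_smul_top_iff 1 _).mp h1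
  have h2' : g • val v 1 - val (c • (v : Tp (EQb W).Point p)) 1 = 0 := h2
  rw [val_smul, hv1, sub_eq_zero] at h2'
  have h3 : Fermat.Agent.GB.A.A6.ECDet.rho W p g x = ((c.appr 1 : ℕ) : ZMod p) • x := by
    apply Subtype.ext
    rw [Nat.cast_smul_eq_nsmul, AddSubmonoidClass.coe_nsmul]
    exact h2'
  rw [h3]
  exact Submodule.smul_mem _ _ (Submodule.mem_span_singleton_self x)

/-! ### determinant and Frobenius characteristic polynomials -/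

theorem natCast_mem_maximalIdeal : ((p : ℕ) : ℤ_[p]) ∈ maximalIdeal ℤ_[p] := by
  rw [maximalIdeal_eq_span_p]
  exact Ideal.mem_span_singleton_self _

/-- **frozen `DetIsCyclotomic p` for `T_p(W)`**, `W[p]` irreducible (no Weil pairing). -/
theorem rhoW_detIsCyclotomic (hΔ : W.Δ ≠ 0) (hirr : W.ModRepIsIrreducible p) :
    (rhoW W p hΔ).DetIsCyclotomic p :=
  Fermat.Agent.GE7.DetQuad.detIsCyclotomic_of_quadratic (rhoW W p hΔ)
    (Fermat.Agent.GE.Top.ecBad W p) (Fermat.Agent.GE.Top.lam_mem_ecBad W p)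
    (fun ℓ : ℕ => ((W.apOfModel ℓ : ℤ) : ℤ_[p])) (rhoW_hquad hΔ) natCast_mem_maximalIdeal
    (rhoW_not_resScalar hΔ hirr)

/-- **`charpoly ρ_W(Frob_ℓ) = X² − a_ℓ(W) X + ℓ`** at every good prime `ℓ ≠ p`. -/
theorem rhoW_charpoly_frob (hΔ : W.Δ ≠ 0) (hirr : W.ModRepIsIrreducible p) {ℓ : ℕ}
    (hℓ : ℓ.Prime) (hℓp : ℓ ≠ p) (hgood : W.IsGoodPrimeFor ℓ) (A : ValuationSubring Qb)
    (hA : A.LiesOverPrime ℓ) (τ : GQ) (hτ : A.IsFrobeniusAt τ ℓ) :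
    LinearMap.charpoly ((rhoW W p hΔ).ρ τ) =
      X ^ 2 - C (((W.apOfModel ℓ : ℤ) : ℤ_[p])) * X + C ((ℓ : ℕ) : ℤ_[p]) :=
  Fermat.Agent.GE7.DetQuad.charpoly_frob_of_quadratic (rhoW W p hΔ)
    (Fermat.Agent.GE.Top.ecBad W p) (Fermat.Agent.GE.Top.lam_mem_ecBad W p)
    (fun ℓ : ℕ => ((W.apOfModel ℓ : ℤ) : ℤ_[p])) (rhoW_hquad hΔ) natCast_mem_maximalIdeal
    (rhoW_not_resScalar hΔ hirr) hℓ (Fermat.Agent.GE.Top.not_mem_ecBad_of_good hℓp hgood)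
    A hA τ hτ

/-- `tr ρ_W(Frob_ℓ) = a_ℓ(W)`, `det ρ_W(Frob_ℓ) = ℓ`. -/
theorem rhoW_trace_det_frob (hΔ : W.Δ ≠ 0) (hirr : W.ModRepIsIrreducible p) {ℓ : ℕ}
    (hℓ : ℓ.Prime) (hℓp : ℓ ≠ p) (hgood : W.IsGoodPrimeFor ℓ) (A : ValuationSubring Qb)
    (hA : A.LiesOverPrime ℓ) (τ : GQ) (hτ : A.IsFrobeniusAt τ ℓ) :
    LinearMap.trace ℤ_[p] (rhoW W p hΔ).V ((rhoW W p hΔ).ρ τ) = ((W.apOfModel ℓ : ℤ) : ℤ_[p]) ∧
      LinearMap.det ((rhoW W p hΔ).ρ τ) = ((ℓ : ℕ) : ℤ_[p]) := by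
  have h := rhoW_charpoly_frob hΔ hirr hℓ hℓp hgood A hA τ hτ
  rw [Fermat.Agent.GK.Tate.charpoly_eq_of_finrank_two (rhoW W p hΔ).finrank_eq] at h
  have h0 := congrArg (fun P : ℤ_[p][X] => P.coeff 0) h
  have h1 := congrArg (fun P : ℤ_[p][X] => P.coeff 1) h
  simp only [coeff_add, coeff_sub, coeff_X_pow, mul_coeff_zero, coeff_X_zero,
    mul_zero, sub_zero, coeff_C_mul, coeff_X_one, mul_one, coeff_C] at h0 h1
  constructor
  · simpa using h1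
  · simpa using h0

end Fermat.Agent.GE7.DictW.Inst
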