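/-
S59 PRE-WORK / E7 DICT(W), curve side, file 4 (helper17): **`T_p(W)` is strictly ordinary at a prime
`p` of multiplicative reduction** (frozen `GaloisRepAdic.IsStrictOrdinaryAt p`).

Glue of helper25 `GE7/OrdMult/Main.ordAtMult` (the finite-level structure `OrdAtMult W p`, Tate curve
over `ℂ_[p]`) and helper64 `GE7/TateAbs/Ord.isStrictOrdinaryAt_tateRep` (transfer to the inverse
limit).
-/
import Fermat.Agent.GE7.DictW.Inst
import Fermat.Agent.GE7.OrdMult.Main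
import Fermat.Agent.GE7.TateAbs.Ord
import Fermat.Agent.GP.Loc.StrictOrdShape

set_option autoImplicit false

open scoped WeierstrassCurve.Affine
open Fermat.Agent.Common_helper32 PadicInt IsLocalRing

namespace Fermat.Agent.GE7.DictW.OrdW

open WeierstrassCurve Fermat.Agent.GE.ECAssembly Fermat.Agent.GE7.TateAbs
  Fermat.Agent.GE7.DictW.Inst

variable {W : WeierstrassCurve ℤ} {p : ℕ} [hp : Fact p.Prime]

/-- helper25's pointwise `OrdAtMult W p` gives helper64's `OrdData` on `W(ℚ̄)`. -/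
theorem ordData_of_ordAtMult (h : Fermat.Agent.GE7.OrdMult.OrdAtMult W p) :
    OrdData (EQb W).Point p := by
  intro A hA
  obtain ⟨C, δ, -, hst, hcyc, -, hin, hline⟩ := h A hA
  refine ⟨C, δ, ⟨fun σ hσ P hP => (hst σ hσ P).mpr hP, fun n => ?_, fun σ hσ n P _ => hin σ hσ P,
    fun σ hσ n P hP => ?_, fun σ hσ n a ha P hPC hP => ?_⟩⟩
  · obtain ⟨g, hgC, hg, hgen⟩ := hcyc n
    exact ⟨g, hgC, hg, fun P hP hPn => (hgen P hP hPn).imp fun i hi => hi.2⟩
  · -- the quotient character: use the exponent `a` of `σ` on `μ_{p^n}`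
    obtain ⟨a, ha⟩ := Fermat.Agent.GP.Loc.StrictOrdShape.exists_cyclotomic_exponent (p ^ n)
      (pow_ne_zero _ hp.out.ne_zero) σ
    exact (hline σ hσ n a ha).2 P hP
  · exact (hline σ hσ n a ha).1 P hPC hP

/-- **`T_p(W)` is strictly ordinary at a prime of multiplicative reduction** (frozen shape). -/
theorem rhoW_isStrictOrdinaryAt (hΔ : W.Δ ≠ 0) (hpΔ : (p : ℤ) ∣ W.Δ) (hc₄ : ¬ (p : ℤ) ∣ W.c₄) :
    (rhoW W p hΔ).IsStrictOrdinaryAt p :=
  isStrictOrdinaryAt_tateRep (card_lvl W p hΔ) (levelFinite W p hΔ)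
    (ordData_of_ordAtMult (Fermat.Agent.GE7.OrdMult.ordAtMult W hΔ hpΔ hc₄))

/-- semistable form. -/
theorem rhoW_isStrictOrdinaryAt_of_semistable (hΔ : W.Δ ≠ 0) (hss : W.IsSemistableModel)
    (hpΔ : (p : ℤ) ∣ W.Δ) : (rhoW W p hΔ).IsStrictOrdinaryAt p :=
  rhoW_isStrictOrdinaryAt hΔ hpΔ (hss p hp.out hpΔ)

end Fermat.Agent.GE7.DictW.OrdW
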