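/-
GATE-E / RISK-3 (DESIDE), RESIDUAL HALF from the E-SIDE (helper33): **`ρ̄_{W,p}` is residually
STRICTLY ordinary at a prime `p` of multiplicative reduction — with NO side condition, NO modular
form**: `T_p(W)` is strictly ordinary (Tate curve: helper17 `GE7/DictW/OrdW`), its residual
representation is `ρ̄_{W,p}` (helper64 `GE7/TateAbs/ResidualW`), and strict ordinarity descends to the
residual representation (helper78 `GB/ResOrd/StrictTransport.isStrictOrdinaryAt_ofResidual`).

In the S59 flow the strict-ordinary branch is EXACTLY `(p : ℤ) ∣ W.Δ`, so these theorems supply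
* `hordbar : (ofResidualGaloisRep (rb p W hcard₁ hker)).IsOrdinaryAt p` (binder of
  `GE8/MinDatum/{Hbar,Hbar3,PNew}`, `GE/Engine/Base.exists_base_SO`, `GE9/Stage/RawSO`) and
* the strictness clause of `hbar` (`GE8/MinDatum/Hbar3.hbar_SO_side` calls
  `GB/ResOrd/StrictPkg.residual_isStrictOrdinaryAt_pkg` WITH `hside : p = 3 → 2 ∣ M` and `hno`)
without `hside`, `hno`, `hordbar` — i.e. `ResStrictNoSideStmt` is not needed for `ρ̄ = ρ̄_{W,p} ⊗ k`.

* `rb_isStrictOrdinaryAt_of_mult`           : over `𝔽_p`;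
* `rb_isOrdinaryAt_of_mult`                 : `hordbar`;
* `rb_baseChangeAlong_isStrictOrdinaryAt_of_mult`, `rb_baseChange_isStrictOrdinaryAt_of_mult` :
  over any field `k'` (`P.rhobar = (rb …).baseChange P.k`).
-/
import Fermat.Agent.GE7.DictW.OrdW
import Fermat.Agent.GE7.TateAbs.ResidualW
import Fermat.Agent.GB.ResOrd.StrictTransport

set_option autoImplicit false

open scoped WeierstrassCurve.Affine
open WeierstrassCurve IsLocalRing

namespace Fermat.Agent.GE7.DictW.ResStrictW

open Fermat.Agent.GE7.DictW.Inst Fermat.Agent.GE7.DictW.OrdW Fermat.Agent.GE7.TateAbs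
  Fermat.Agent.GB.ResOrd.StrictTransport

variable {W : WeierstrassCurve ℤ} {p : ℕ} [hp : Fact p.Prime]
  (hcard₁ : Nat.card (Submodule.torsionBy ℤ
    ((W.map (Int.castRingHom ℚ))⁄(AlgebraicClosure ℚ)).Point p) = p ^ 2)
  (hker : GaloisFactorsThroughFiniteLevel
    (WeierstrassCurve.Affine.Point.galoisRepModuleEnd (K := AlgebraicClosure ℚ) ℚ
      (W.map (Int.castRingHom ℚ)) p))

/-- **`ρ̄_{W,p}` is strictly ordinary at a prime of multiplicative reduction** (over `𝔽_p`). -/
theorem rb_isStrictOrdinaryAt_of_mult (hΔ : W.Δ ≠ 0) (hss : W.IsSemistableModel)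
    (hpΔ : (p : ℤ) ∣ W.Δ) :
    (GaloisRepAdic.ofResidualGaloisRep
      ((W.map (Int.castRingHom ℚ)).residualGaloisRepOf p hcard₁ hker)).IsStrictOrdinaryAt p := by
  let ι : ZMod p →+* ResidueField ℤ_[p] := (PadicInt.residueField (p := p)).symm.toRingHom
  have hι : Function.Surjective ι := (PadicInt.residueField (p := p)).symm.surjective
  exact isStrictOrdinaryAt_ofResidual
    ((W.map (Int.castRingHom ℚ)).residualGaloisRepOf p hcard₁ hker) ι hι
    (residual_tateRepW_isEquiv hcard₁ hker (card_lvl W p hΔ) (levelFinite W p hΔ) ι)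
    (rhoW_isStrictOrdinaryAt_of_semistable hΔ hss hpΔ)

/-- **`hordbar`**: `ρ̄_{W,p}` is ordinary at a prime of multiplicative reduction. -/
theorem rb_isOrdinaryAt_of_mult (hΔ : W.Δ ≠ 0) (hss : W.IsSemistableModel)
    (hpΔ : (p : ℤ) ∣ W.Δ) :
    (GaloisRepAdic.ofResidualGaloisRep
      ((W.map (Int.castRingHom ℚ)).residualGaloisRepOf p hcard₁ hker)).IsOrdinaryAt p :=
  (rb_isStrictOrdinaryAt_of_mult hcard₁ hker hΔ hss hpΔ).isOrdinaryAt

/-- the same after base change along any field hom. -/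
theorem rb_baseChangeAlong_isStrictOrdinaryAt_of_mult (hΔ : W.Δ ≠ 0) (hss : W.IsSemistableModel)
    (hpΔ : (p : ℤ) ∣ W.Δ) {k' : Type} [Field k'] (φ : ZMod p →+* k') :
    (GaloisRepAdic.ofResidualGaloisRep
      (((W.map (Int.castRingHom ℚ)).residualGaloisRepOf p hcard₁ hker).baseChangeAlong
        φ)).IsStrictOrdinaryAt p :=
  isStrictOrdinaryAt_baseChangeAlong_residual _ φ
    (rb_isStrictOrdinaryAt_of_mult hcard₁ hker hΔ hss hpΔ)

/-- `ρ.baseChange k'` is `ρ.baseChangeAlong (algebraMap k k')`. -/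
theorem baseChange_eq_baseChangeAlong' {k k' : Type} [Field k] [Field k'] [inst : Algebra k k']
    (ρ : ResidualGaloisRep k) : ρ.baseChange k' = ρ.baseChangeAlong (algebraMap k k') := by
  have key : ∀ (i₁ i₂ : Algebra k k'), i₁ = i₂ →
      @ResidualGaloisRep.baseChange k _ k' _ i₁ ρ = @ResidualGaloisRep.baseChange k _ k' _ i₂ ρ := by
    rintro _ _ rfl
    rfl
  exact key inst (algebraMap k k').toAlgebra (Algebra.algebra_ext _ _ fun _ => rfl)

/-- **the strictness clause of `hbar`**: `ρ̄_{W,p} ⊗ k'` (the bundle's `P.rhobar`) is strictly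
ordinary at a prime of multiplicative reduction. -/
theorem rb_baseChange_isStrictOrdinaryAt_of_mult (hΔ : W.Δ ≠ 0) (hss : W.IsSemistableModel)
    (hpΔ : (p : ℤ) ∣ W.Δ) (k' : Type) [Field k'] [Algebra (ZMod p) k'] :
    (GaloisRepAdic.ofResidualGaloisRep
      (((W.map (Int.castRingHom ℚ)).residualGaloisRepOf p hcard₁ hker).baseChange
        k')).IsStrictOrdinaryAt p := by
  rw [baseChange_eq_baseChangeAlong']
  exact rb_baseChangeAlong_isStrictOrdinaryAt_of_mult hcard₁ hker hΔ hss hpΔ _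

end Fermat.Agent.GE7.DictW.ResStrictW
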