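/-
S59 PRE-WORK / E7 DICT(W), curve side, file 7 (helper17): **the finite levels of `T_p(W)` are the
frozen torsion modules `W(ℚ̄)[p^n]`**, in the exact shape of the hypothesis of helper5's abstract
plug `GE7/FlatGood/Plug.isFlatAt_of_levels` (board 6619 (B)):

  for every ideal `I ⊆ ℤ_[p]` of finite index there are `n` and an injective additive map
  `j : V ⧸ I • ⊤ →+ torsionBy ℤ (EQb W).Point ((p ^ n : ℕ) : ℤ)` with
  `j (ρ.levelAction I σ x) = σ • j x`.
-/
import Fermat.Agent.GE7.DictW.Inst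
import Fermat.Prelude.Def_GaloisRep_Flat

set_option autoImplicit false

open scoped WeierstrassCurve.Affine
open Fermat.Agent.Common_helper32 PadicInt IsLocalRing

namespace Fermat.Agent.GE7.DictW.FlatLevels

open WeierstrassCurve Fermat.Agent.GE.ECAssembly Fermat.Agent.GE7.TateAbs
  Fermat.Agent.GE7.DictW.Inst

variable {W : WeierstrassCurve ℤ} {p : ℕ} [hp : Fact p.Prime]

/-- an ideal of finite index of `ℤ_[p]` is a power of the maximal ideal. -/
theorem exists_eq_pow_of_finite (I : Ideal ℤ_[p]) (hI : Finite (ℤ_[p] ⧸ I)) :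
    ∃ n : ℕ, I = maximalIdeal ℤ_[p] ^ n := by
  have hne : I ≠ ⊥ := by
    rintro rfl
    have : Finite ℤ_[p] := Finite.of_equiv _ (RingEquiv.quotientBot ℤ_[p]).toEquiv
    exact not_finite ℤ_[p]
  obtain ⟨n, hn⟩ := PadicInt.ideal_eq_span_pow_p hne
  exact ⟨n, by rw [hn, maximalIdeal_eq_span_p, Ideal.span_singleton_pow]⟩

/-- the inclusion `E[p^n] → torsionBy ℤ E (p^n)` (frozen shape). -/
noncomputable def lvlToTorsion (W : WeierstrassCurve ℤ) (p n : ℕ) :
    lvl (EQb W).Point p n →+ Submodule.torsionBy ℤ (EQb W).Point ((p ^ n : ℕ) : ℤ) where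
  toFun x := ⟨x.1, (mem_TN_iff W (p ^ n) x.1).mpr (mem_lvl.mp x.2)⟩
  map_zero' := rfl
  map_add' _ _ := rfl

theorem lvlToTorsion_injective (W : WeierstrassCurve ℤ) (p n : ℕ) :
    Function.Injective (lvlToTorsion W p n) := fun _ _ h =>
  Subtype.ext (congrArg (fun z : Submodule.torsionBy ℤ (EQb W).Point ((p ^ n : ℕ) : ℤ) => z.1) h)

/-- **the levels of `T_p(W)`** (hypothesis of helper5's `isFlatAt_of_levels`, VERBATIM). -/
theorem rhoW_levels (hΔ : W.Δ ≠ 0) (I : Ideal ℤ_[p]) (hI : Finite (ℤ_[p] ⧸ I)) :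
    ∃ (n : ℕ) (j : (rhoW W p hΔ).V ⧸ (I • (⊤ : Submodule ℤ_[p] (rhoW W p hΔ).V)) →+
        Submodule.torsionBy ℤ (EQb W).Point ((p ^ n : ℕ) : ℤ)),
      Function.Injective j ∧ ∀ (σ : GQ)
        (x : (rhoW W p hΔ).V ⧸ (I • (⊤ : Submodule ℤ_[p] (rhoW W p hΔ).V))),
        j ((rhoW W p hΔ).levelAction I σ x) = σ • j x := by
  obtain ⟨n, rfl⟩ := exists_eq_pow_of_finite I hI
  have hker : LinearMap.ker (proj (EQb W).Point p n) =
      (maximalIdeal ℤ_[p] ^ n) • (⊤ : Submodule ℤ_[p] (Tp (EQb W).Point p)) := ker_proj n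
  let f : (rhoW W p hΔ).V ⧸ ((maximalIdeal ℤ_[p] ^ n) •
      (⊤ : Submodule ℤ_[p] (rhoW W p hΔ).V)) →ₗ[ℤ_[p]] lvl (EQb W).Point p n :=
    Submodule.liftQ _ (proj (EQb W).Point p n) hker.ge
  have hf : Function.Injective f := by
    rw [← LinearMap.ker_eq_bot]
    exact Submodule.ker_liftQ_eq_bot _ _ _ hker.le
  refine ⟨n, (lvlToTorsion W p n).comp f.toAddMonoidHom,
    (lvlToTorsion_injective W p n).comp hf, fun σ x => ?_⟩
  obtain ⟨v, rfl⟩ := Submodule.Quotient.mk_surjective _ x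
  rfl

end Fermat.Agent.GE7.DictW.FlatLevels
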