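/-
S59 PRE-WORK / E7 DICT(W), curve side, file 8 (helper17): **`T_p(W)` is flat at a good prime
`p ≠ 2`** (frozen `GaloisRepAdic.IsFlatAt p`).

* `hasFinOrder_torsion_nat` : a finite `Δ`-stable `ℤ_(p)`-order on the frozen `W(ℚ̄)[m]` for EVERY
  `m ≥ 1` (helper75 `GF/EFrame/FinOrd.hasFinOrder_torsion_of_place` with `p ↦ m` in the torsion
  level: the GH core chain `hasFinOrder_of_lSpaceHyp` applies to any finite Galois-stable subgroup of
  `Pic⁰` of finite level);
* `rhoW_isFlatAt` : `(rhoW W p hΔ).IsFlatAt p` through `FlatLevels.rhoW_levels` and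
  `GF/EFlat/Generic.flatMod_of_hasFinOrder`.
-/
import Fermat.Agent.GE7.DictW.FlatLevels
import Fermat.Agent.GF.EFrame.FinOrd
import Fermat.Agent.GF.EFlat.Generic

set_option autoImplicit false
set_option linter.unusedSectionVars false

noncomputable section

open AlgebraicCurve WeierstrassCurve IsLocalRing
open scoped WeierstrassCurve.Affine

namespace Fermat.Agent.GE7.DictW.FlatW

open Fermat.Agent.RRh45 Fermat.Agent.GJ.S37MinDiv Fermat.Agent.GJ.J1 Fermat.Agent.GJ.S37LSpace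
  Fermat.Agent.GJ.S37ROfSurj Fermat.Agent.S24 Fermat.Agent.GH Fermat.Agent.GH.Gal
  Fermat.Agent.GH.Closure Fermat.Agent.GF.EFrame.GalERed Fermat.Agent.GF.EPoints
  WeierstrassCurve.Affine.Point Fermat.Agent.GF.EFrame

local notation "Qb" => AlgebraicClosure ℚ
local notation "GQ" => (AlgebraicClosure ℚ ≃ₐ[ℚ] AlgebraicClosure ℚ)

section Main

variable (A : ValuationSubring Qb) (W : WeierstrassCurve ℤ) {p : ℕ} [Fact p.Prime]

/-- **a finite flat order on the frozen `E[m]`**, `m ≥ 1`, given a place over the good prime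
`p ≠ 2`. -/
theorem hasFinOrder_torsion_nat_of_place (hp2 : p ≠ 2) (hgood : ¬ (p : ℤ) ∣ W.Δ)
    (hA : (p : Qb) ∈ A.nonunits) (m : ℕ) (hm : 1 ≤ m) : HasFinOrder p (actTorsion W m) := by
  have hp : p.Prime := Fact.out
  have hΔk := Δ_Ek_int_ne_zero A W hp hA hgood
  have hΔK := Δ_EK_ne_zero A (WAint A W) hΔk
  have : (EK A (WAint A W)).IsElliptic := ⟨isUnit_iff_ne_zero.2 hΔK⟩
  let _ := pic0ActionE (hrat_int A W)
  have H := lSpaceHypE_int A W hp hA hp2 hgood
  have G := galFrameE_int A W hp hA hp2 hgood H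
  have hM : ∀ σ : GQ, ∀ x ∈ Pic0.torsion Qb (FE A (WAint A W)) m,
      σ • x ∈ Pic0.torsion Qb (FE A (WAint A W)) m :=
    fun σ x hx => SemilinearAut.smul_mem_torsion (galE (hrat_int A W) σ) hx
  have hfinE : Finite (Submodule.torsionBy ℤ (EK A (WAint A W)).Point (m : ℤ)) :=
    Fermat.Agent.GE.Tors.finite_torsionBy (W := EK A (WAint A W)) hΔK m hm
  have : Finite (Pic0.torsion Qb (FE A (WAint A W)) m) :=
    Finite.of_equiv _ (torsionEquiv (EK A (WAint A W)) (FE A (WAint A W)) m).toEquiv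
  have hlev : ∃ U : Subgroup GQ, IsOpen (U : Set GQ) ∧ ∀ σ ∈ U,
      ∀ x : Pic0.torsion Qb (FE A (WAint A W)) m, actM hM σ x = x := by
    obtain ⟨U, hU, hfix⟩ := exists_level_torsion (EK A (WAint A W)) hΔK m hm
    refine ⟨U, hU, fun σ hσ x => Subtype.ext ?_⟩
    show galE (hrat_int A W) σ • (x : Pic0 Qb (FE A (WAint A W))) = x
    obtain ⟨P, hP⟩ := (pointEquiv (EK A (WAint A W)) (FE A (WAint A W))).surjective x.1
    have hPt : (m : ℤ) • P = 0 :=
      (pointEquiv_mem_torsion_iff (EK A (WAint A W)) (FE A (WAint A W)) m P).1 (by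
        rw [hP]; exact x.2)
    rw [← hP]
    rcases P with _ | ⟨a, b, h⟩
    · have h0 : (Affine.Point.zero : (EK A (WAint A W)).Point) = 0 := rfl
      rw [h0, _root_.map_zero]
      exact smul_zero (A := Pic0 Qb (FE A (WAint A W))) (galE (hrat_int A W) σ)
    · obtain ⟨ha, hb⟩ := hfix σ hσ a b h hPt
      exact (pointEquiv_smul_some (EK A (WAint A W)) (galE (hrat_int A W) σ)
        (galE_smul_tE (hrat_int A W) σ) (galE_smul_yE (hrat_int A W) σ) h ha hb h).symm
  have h1 : HasFinOrder p (actM hM) :=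
    hasFinOrder_of_lSpaceHyp (R := redDataE A (WAint A W)) H (n := 1) (by norm_num) G hA hM hlev
  -- the embedding of the frozen `E[m]`
  have hjmem : ∀ P : Submodule.torsionBy ℤ (Efrozen W).Point (m : ℤ),
      jPoint A W P.1 ∈ Pic0.torsion Qb (FE A (WAint A W)) m := by
    intro P
    rw [Pic0.mem_torsion, ← map_zsmul, (Submodule.mem_torsionBy_iff _ _).1 P.2, _root_.map_zero]
  let j : Submodule.torsionBy ℤ (Efrozen W).Point (m : ℤ) →+
      Pic0.torsion Qb (FE A (WAint A W)) m :=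
    { toFun := fun P => ⟨jPoint A W P.1, hjmem P⟩
      map_zero' := Subtype.ext (_root_.map_zero (jPoint A W))
      map_add' := fun P Q => Subtype.ext (_root_.map_add (jPoint A W) P.1 Q.1) }
  have hj : Function.Injective j := by
    intro P Q hPQ
    have h2 : jPoint A W P.1 = jPoint A W Q.1 := congrArg Subtype.val hPQ
    exact Subtype.ext (jPoint_injective A W h2)
  refine h1.of_injective j hj fun σ P => Subtype.ext ?_
  show jPoint A W (σ • P.1) = galE (hrat_int A W) σ • jPoint A W P.1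
  exact jPoint_smul A W σ P.1

/-- **a finite flat order on the frozen `E[m]`**, `m ≥ 1`, at a good prime `p ≠ 2`. -/
theorem hasFinOrder_torsion_nat (hp2 : p ≠ 2) (hgood : ¬ (p : ℤ) ∣ W.Δ) (m : ℕ) (hm : 1 ≤ m) :
    HasFinOrder p (actTorsion W m) := by
  obtain ⟨A, hA⟩ := Fermat.Agent.Common_helper32.exists_liesOverPrime p (Fact.out : p.Prime)
  exact hasFinOrder_torsion_nat_of_place A W hp2 hgood hA m hm

end Main

section Final

open Fermat.Agent.GE7.DictW.Inst Fermat.Agent.GE7.DictW.FlatLevels Fermat.Agent.GH.S32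
  Fermat.Agent.GF.EFlat PadicInt

variable {W : WeierstrassCurve ℤ} {p : ℕ} [hp : Fact p.Prime]

theorem finite_residueField_padicInt : Finite (ResidueField ℤ_[p]) :=
  Finite.of_equiv (ZMod p) (PadicInt.residueField (p := p)).symm.toEquiv

/-- **`T_p(W)` is flat at a good prime `p ≠ 2`** (frozen shape). -/
theorem rhoW_isFlatAt (hΔ : W.Δ ≠ 0) (hp2 : p ≠ 2) (hgood : ¬ (p : ℤ) ∣ W.Δ) :
    (rhoW W p hΔ).IsFlatAt p := by
  rw [isFlatAt_iff]
  refine ⟨finite_residueField_padicInt, fun I hI => ?_⟩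
  obtain ⟨n, j, hj, hjeq⟩ := rhoW_levels hΔ I hI
  have h0 : HasFinOrder p (actTorsion W (p ^ n)) :=
    hasFinOrder_torsion_nat W hp2 hgood (p ^ n) (Nat.one_le_pow _ _ hp.out.pos)
  have h1 : HasFinOrder p (levelActAdd (rhoW W p hΔ) I) :=
    h0.of_injective j hj fun σ x => hjeq σ x
  have hfin : Finite (Submodule.torsionBy ℤ (Efrozen W).Point ((p ^ n : ℕ) : ℤ)) :=
    Fermat.Agent.GE.ECAssembly.finite_TN W hΔ (p ^ n) (Nat.one_le_pow _ _ hp.out.pos)
  have : Finite ((rhoW W p hΔ).V ⧸ (I • (⊤ : Submodule ℤ_[p] (rhoW W p hΔ).V))) :=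
    Finite.of_injective j hj
  exact flatMod_of_hasFinOrder h1

end Final

end Fermat.Agent.GE7.DictW.FlatW
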