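/-
S59 PRE-WORK / E7 DICT(W), curve side, file 9 (helper17): **E7 CLOSED, binder-free.**  For `W/ℤ`
semistable, `Δ ≠ 0`, `W[p]` irreducible, `p ≠ 2`, and the sets `Smin ∋ p`, `Sig` of the engine
contract (`GE/Graph/RTStmtW.RTConcl`):

* `condFL_rhoWO_good` : `W` good at `p` ⟹ `condFL 𝒪 p Smin Sig (rhoWO W p 𝒪 hΔ)`;
* `condSO_rhoWO_mult` : `p ∣ Δ` ⟹ `condSO 𝒪 p Smin Sig (rhoWO W p 𝒪 hΔ)`.
-/
import Fermat.Agent.GE7.DictW.DictPlug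
import Fermat.Agent.GE7.DictW.FlatW

set_option autoImplicit false

open scoped WeierstrassCurve.Affine
open PadicInt IsLocalRing

namespace Fermat.Agent.GE7.DictW.DictFinal

open WeierstrassCurve Fermat.Agent.GE7.DictW.Inst Fermat.Agent.GE7.DictW.Dict
  Fermat.Agent.GE7.DictW.DictPlug Fermat.Agent.GE7.DictW.FlatW Fermat.Agent.GE.Graph

variable {W : WeierstrassCurve ℤ} {p : ℕ} [hp : Fact p.Prime]
  {𝒪 : Type} [CommRing 𝒪] [IsLocalRing 𝒪] [Algebra ℤ_[p] 𝒪]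
  [hloc : IsLocalHom (algebraMap ℤ_[p] 𝒪)]

/-- **[A]** good reduction at `p ≠ 2`: `ρ_{W,𝒪}` is of type `𝒟^{fl}_Σ`. -/
theorem condFL_rhoWO_good (hΔ : W.Δ ≠ 0) (hss : W.IsSemistableModel)
    (hirr : W.ModRepIsIrreducible p) (h𝒪 : Finite (ResidueField 𝒪)) (hp2 : p ≠ 2)
    (hgood : W.IsGoodPrimeFor p) {Smin Sig : Finset ℕ} (hpS : p ∈ Smin)
    (hSig : ∀ q : ℕ, q ∈ Sig ↔ q.Prime ∧ (q : ℤ) ∣ W.Δ ∧ q ∉ Smin) :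
    condFL 𝒪 p Smin Sig (rhoWO W p 𝒪 hΔ) :=
  condFL_rhoWO hΔ hss hirr h𝒪 (rhoW_isFlatAt hΔ hp2 hgood) hpS hSig

/-- **[B]** multiplicative reduction at `p`: `ρ_{W,𝒪}` is of type `𝒟^{so}_Σ`. -/
theorem condSO_rhoWO_mult (hΔ : W.Δ ≠ 0) (hss : W.IsSemistableModel)
    (hirr : W.ModRepIsIrreducible p) (hpΔ : (p : ℤ) ∣ W.Δ) {Smin Sig : Finset ℕ} (hpS : p ∈ Smin)
    (hSig : ∀ q : ℕ, q ∈ Sig ↔ q.Prime ∧ (q : ℤ) ∣ W.Δ ∧ q ∉ Smin) :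
    condSO 𝒪 p Smin Sig (rhoWO W p 𝒪 hΔ) :=
  condSO_rhoWO hΔ hss hirr hpΔ hpS hSig

end Fermat.Agent.GE7.DictW.DictFinal
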