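/-
S59 pre-work / node E7 DICT(W) (helper17): Mathlib-only algebra for "RELATION FORM ⟹ CHARPOLY FORM".

`R` a commutative (local) ring, `V` a free `R`-module of rank two, `φ : End_R V`.

* `trace_det_of_cyclic_basis` : if `(x, φ x)` is a basis and `φ² − t φ + d = 0` then `tr φ = t`,
  `det φ = d`;
* `IsCyc φ x`   : `(x, φ x)` generates `V` modulo `𝔪 V` (`φ` is not scalar modulo `𝔪`, witnessed
  by `x`);
* `IsCyc.exists_basis` : then `(x, φ x)` IS a basis (Nakayama + Orzech);
* `IsCyc.trace_det`    : trace and determinant from a quadratic relation;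
* `IsCyc.conj`, `IsCyc.congr` : stability under conjugation / perturbation modulo `𝔪`;
* `isCyc_or_isCyc_mul` : for `g₀` cyclic at `x₀` and `g` invertible, `g` or `g₀ g` is cyclic at `x₀`.
-/
import Mathlib

set_option autoImplicit false

open Module IsLocalRing

namespace Fermat.Agent.GE7.DictW.CyclicAbs

section Basis

variable {R : Type*} [CommRing R] {V : Type*} [AddCommGroup V] [Module R V]

/-- trace and determinant of an endomorphism with a cyclic basis `(x, φ x)` and a quadratic
relation. -/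
theorem trace_det_of_cyclic_basis (b : Basis (Fin 2) R V) (φ : Module.End R V)
    (hb : b 1 = φ (b 0)) {t d : R}
    (hrel : φ * φ - t • φ + d • (1 : Module.End R V) = 0) :
    LinearMap.trace R V φ = t ∧ LinearMap.det φ = d := by
  have h0 : φ (b 0) = b 1 := hb.symm
  have h1 : φ (b 1) = t • b 1 - d • b 0 := by
    have h := LinearMap.congr_fun hrel (b 0)
    simp only [LinearMap.add_apply, LinearMap.sub_apply, Module.End.mul_apply,
      LinearMap.smul_apply, Module.End.one_apply, LinearMap.zero_apply] at h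
    rw [h0] at h
    rw [← sub_eq_zero, ← h]
    abel
  have hM : LinearMap.toMatrix b b φ = !![0, -d; 1, t] := by
    ext i j
    rw [LinearMap.toMatrix_apply]
    fin_cases j
    · show b.repr (φ (b 0)) i = _
      rw [h0, Basis.repr_self]
      fin_cases i <;> simp
    · show b.repr (φ (b 1)) i = _
      rw [h1, map_sub, map_smul, map_smul, Basis.repr_self, Basis.repr_self]
      fin_cases i <;> simp
  constructor
  · rw [LinearMap.trace_eq_matrix_trace R b φ, hM, Matrix.trace_fin_two_of, zero_add]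
  · rw [← LinearMap.det_toMatrix b φ, hM, Matrix.det_fin_two_of]
    ring

end Basis

section Local

variable {R : Type*} [CommRing R] [IsLocalRing R] {V : Type*} [AddCommGroup V] [Module R V]

/-- `𝔪 V`. -/
local notation "𝔪V" => (maximalIdeal R • (⊤ : Submodule R V))

/-- `(x, φ x)` generates `V` modulo `𝔪 V`. -/
def IsCyc (φ : Module.End R V) (x : V) : Prop :=
  Submodule.span R {x, φ x} ⊔ 𝔪V = ⊤

/-- endomorphisms preserve `𝔪 V`. -/
theorem apply_mem_smul_top (f : Module.End R V) {v : V} (hv : v ∈ 𝔪V) : f v ∈ 𝔪V := by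
  have h : (𝔪V).map f ≤ 𝔪V := by
    rw [Submodule.map_smul'']
    exact Submodule.smul_mono le_rfl le_top
  exact h (Submodule.mem_map_of_mem hv)

/-- a criterion: `y₀` lies in `span {x, y} ⊔ 𝔪 V`. -/
theorem isCyc_of_mem {φ₀ φ : Module.End R V} {x : V} (h₀ : IsCyc φ₀ x)
    (hmem : φ₀ x ∈ Submodule.span R {x, φ x} ⊔ 𝔪V) : IsCyc φ x := by
  unfold IsCyc at h₀ ⊢
  have hle : Submodule.span R {x, φ₀ x} ⊔ 𝔪V ≤ Submodule.span R {x, φ x} ⊔ 𝔪V := by
    refine sup_le ?_ le_sup_right
    rw [Submodule.span_le]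
    rintro z (rfl | hz)
    · exact Submodule.mem_sup_left (Submodule.subset_span (Set.mem_insert _ _))
    · rw [Set.mem_singleton_iff] at hz
      rw [hz]
      exact hmem
  exact eq_top_iff.mpr (h₀.symm.le.trans hle)

/-- perturbation modulo `𝔪`. -/
theorem IsCyc.congr {φ φ' : Module.End R V} {x : V} (h : IsCyc φ' x)
    (hc : ∀ v, φ v - φ' v ∈ 𝔪V) : IsCyc φ x := by
  refine isCyc_of_mem h ?_
  have e : φ' x = φ x - (φ x - φ' x) := by abel
  rw [e]
  refine Submodule.sub_mem _ ?_ (Submodule.mem_sup_right (hc x))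
  exact Submodule.mem_sup_left (Submodule.subset_span (Set.mem_insert_of_mem _ rfl))

/-- conjugation. -/
theorem IsCyc.conj {φ h h' : Module.End R V} {x : V} (hx : IsCyc φ x) (hh : h * h' = 1)
    (hh' : h' * h = 1) : IsCyc (h * φ * h') (h x) := by
  unfold IsCyc at hx ⊢
  have e1 : (h * φ * h') (h x) = h (φ x) := by
    rw [Module.End.mul_apply, Module.End.mul_apply]
    congr 2
    exact LinearMap.congr_fun hh' x
  rw [e1]
  have hsurj : Function.Surjective h := fun v => ⟨h' v, LinearMap.congr_fun hh v⟩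
  rw [eq_top_iff]
  intro v _
  obtain ⟨w, rfl⟩ := hsurj v
  have hw : w ∈ Submodule.span R {x, φ x} ⊔ 𝔪V := by rw [hx]; trivial
  obtain ⟨s, hs, m, hm, rfl⟩ := Submodule.mem_sup.mp hw
  rw [map_add]
  refine Submodule.add_mem _ (Submodule.mem_sup_left ?_)
    (Submodule.mem_sup_right (apply_mem_smul_top h hm))
  have : (Submodule.span R {x, φ x}).map h = Submodule.span R {h x, h (φ x)} := by
    rw [Submodule.map_span, Set.image_pair]
  rw [← this]
  exact Submodule.mem_map_of_mem hs

variable [Module.Finite R V]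

/-- Nakayama + Orzech: a cyclic pair is a basis. -/
theorem IsCyc.exists_basis (hV : finrank R V = 2) {φ : Module.End R V} {x : V}
    (h : IsCyc φ x) : ∃ b : Basis (Fin 2) R V, b 0 = x ∧ b 1 = φ x := by
  have hspan : (⊤ : Submodule R V) ≤ Submodule.span R {x, φ x} := by
    refine Submodule.le_of_le_smul_of_le_jacobson_bot (Module.finite_def.mp inferInstance)
      (IsLocalRing.maximalIdeal_le_jacobson ⊥) ?_
    rw [h]
  have hrange : Set.range ![x, φ x] = {x, φ x} := by
    rw [Matrix.range_cons, Matrix.range_cons, Matrix.range_empty, Set.union_empty,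
      Set.singleton_union]
  refine ⟨basisOfTopLeSpanOfCardEqFinrank ![x, φ x] (by rw [hrange]; exact hspan)
    (by rw [hV, Fintype.card_fin]), ?_, ?_⟩
  · rw [coe_basisOfTopLeSpanOfCardEqFinrank]; rfl
  · rw [coe_basisOfTopLeSpanOfCardEqFinrank]; rfl

/-- trace and determinant of a cyclic endomorphism killed by `X² − tX + d`. -/
theorem IsCyc.trace_det (hV : finrank R V = 2) {φ : Module.End R V} {x : V} (h : IsCyc φ x)
    {t d : R} (hrel : φ * φ - t • φ + d • (1 : Module.End R V) = 0) :
    LinearMap.trace R V φ = t ∧ LinearMap.det φ = d := by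
  obtain ⟨b, hb0, hb1⟩ := h.exists_basis hV
  exact trace_det_of_cyclic_basis b φ (by rw [hb1, hb0]) hrel

/-- `𝔪 V ≠ V`. -/
theorem smul_top_ne_top (hV : finrank R V = 2) : 𝔪V ≠ ⊤ := by
  intro h
  have h1 : (⊤ : Submodule R V) = ⊥ :=
    Submodule.eq_bot_of_le_smul_of_le_jacobson_bot (maximalIdeal R) ⊤
      (Module.finite_def.mp inferInstance) (by rw [h])
      (IsLocalRing.maximalIdeal_le_jacobson ⊥)
  have h2 : finrank R V = 0 := by
    rw [← finrank_top R V, h1, finrank_bot]
  omega

/-- **dichotomy**: `g₀` cyclic at `x₀`, `g` invertible ⟹ `g` or `g₀ g` is cyclic at `x₀`. -/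
theorem isCyc_or_isCyc_mul (hV : finrank R V = 2) {g₀ g g' : Module.End R V} {x₀ : V}
    (h₀ : IsCyc g₀ x₀) (hg' : g' * g = 1) : IsCyc g x₀ ∨ IsCyc (g₀ * g) x₀ := by
  have hgx : g x₀ ∈ Submodule.span R {x₀, g₀ x₀} ⊔ 𝔪V := by
    have := h₀; unfold IsCyc at this; rw [this]; trivial
  obtain ⟨s, hs, m, hm, hsm⟩ := Submodule.mem_sup.mp hgx
  obtain ⟨α, β, rfl⟩ := Submodule.mem_span_pair.mp hs
  by_cases hβ : IsUnit β
  · left
    refine isCyc_of_mem h₀ ?_
    obtain ⟨u, rfl⟩ := hβ
    have e0 : g x₀ - α • x₀ - m = (u : R) • g₀ x₀ := by rw [← hsm]; abel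
    have e : g₀ x₀ = (↑u⁻¹ : R) • (g x₀ - α • x₀) - (↑u⁻¹ : R) • m := by
      rw [← smul_sub, e0, smul_smul, Units.inv_mul, one_smul]
    rw [e]
    refine Submodule.sub_mem _ (Submodule.mem_sup_left ?_)
      (Submodule.mem_sup_right (Submodule.smul_mem _ _ hm))
    refine Submodule.smul_mem _ _ (Submodule.sub_mem _ ?_ ?_)
    · exact Submodule.subset_span (Set.mem_insert_of_mem _ rfl)
    · exact Submodule.smul_mem _ _ (Submodule.subset_span (Set.mem_insert _ _))
  · right
    have hβm : β ∈ maximalIdeal R := (mem_maximalIdeal β).mpr hβ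
    -- `g x₀ = α x₀ + m'` with `m' ∈ 𝔪 V`
    have hm' : β • g₀ x₀ + m ∈ 𝔪V :=
      Submodule.add_mem _ (Submodule.smul_mem_smul hβm trivial) hm
    have hgx' : g x₀ = α • x₀ + (β • g₀ x₀ + m) := by rw [← hsm]; abel
    have hα : IsUnit α := by
      by_contra hα
      have hαm : α ∈ maximalIdeal R := (mem_maximalIdeal α).mpr hα
      have h1 : g x₀ ∈ 𝔪V := by
        rw [hgx']
        exact Submodule.add_mem _ (Submodule.smul_mem_smul hαm trivial) hm'
      have h2 : x₀ ∈ 𝔪V := by
        have := apply_mem_smul_top g' h1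
        rwa [← Module.End.mul_apply, hg', Module.End.one_apply] at this
      have h3 : g₀ x₀ ∈ 𝔪V := apply_mem_smul_top g₀ h2
      apply smul_top_ne_top (R := R) (V := V) hV
      have hle : Submodule.span R {x₀, g₀ x₀} ⊔ 𝔪V ≤ 𝔪V := by
        refine sup_le ?_ le_rfl
        rw [Submodule.span_le]
        rintro z (rfl | hz)
        · exact h2
        · rw [Set.mem_singleton_iff] at hz; rw [hz]; exact h3
      have h4 : Submodule.span R {x₀, g₀ x₀} ⊔ 𝔪V = ⊤ := h₀
      exact eq_top_iff.mpr (h4.symm.le.trans hle)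
    refine isCyc_of_mem h₀ ?_
    obtain ⟨u, rfl⟩ := hα
    have e : g₀ x₀ = (↑u⁻¹ : R) • (g₀ * g) x₀ - (↑u⁻¹ : R) • g₀ (β • g₀ x₀ + m) := by
      rw [Module.End.mul_apply, hgx', map_add g₀, map_smul g₀, smul_add, add_sub_cancel_right,
        smul_smul, Units.inv_mul, one_smul]
    rw [e]
    refine Submodule.sub_mem _ (Submodule.mem_sup_left ?_)
      (Submodule.mem_sup_right (Submodule.smul_mem _ _ (apply_mem_smul_top g₀ hm')))
    exact Submodule.smul_mem _ _ (Submodule.subset_span (Set.mem_insert_of_mem _ rfl))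

end Local

end Fermat.Agent.GE7.DictW.CyclicAbs
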