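/-
S59 PRE-WORK / E7 DICT(W), curve side, file 5 (helper17): **the dictionary for `W` over a
coefficient ring `𝒪`** (GRAPH v0, ruling R1): for a local `ℤ_[p]`-algebra `𝒪` with local structure map,

  `rhoWO W p hΔ 𝒪 := (rhoW W p hΔ).baseChangeAlong (algebraMap ℤ_[p] 𝒪) _ : GaloisRepAdic 𝒪`

satisfies the frozen S56-shaped deformation conditions:

* `rhoWO_detIsCyclotomic`, `rhoWO_isUnramifiedAt`, `rhoWO_isUnipotentOnInertiaAt`,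
  `rhoWO_charpoly_frob` (`charpoly ρ(Frob_ℓ) = X² − a_ℓ(W) X + ℓ` over `𝒪`);
* `rhoWO_isStrictOrdinaryAt` (multiplicative `p`), `rhoWO_isFlatAt` (from `IsFlatAt` of `rhoW`);
* `rhoWO_strictCond` / `rhoWO_flatCond` : `cond 𝒪 p S ρ ∧ ∀ q ∈ Smin, q.Prime → q ≠ p → unipotent`
  for EVERY `S` containing `p` and the bad primes of `W`, and every `Smin`.
-/
import Fermat.Agent.GE7.DictW.OrdW
import Fermat.Agent.GP.Tan.BaseChangeCond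
import Fermat.Agent.GB.Def.CondFlatAtom
import Fermat.Agent.GB.Def.CondAtom

set_option autoImplicit false

open scoped WeierstrassCurve.Affine
open Fermat.Agent.Common_helper32 PadicInt IsLocalRing Polynomial

namespace Fermat.Agent.GE7.DictW.Dict

open WeierstrassCurve Fermat.Agent.GE7.DictW.Inst Fermat.Agent.GE7.DictW.OrdW
  Fermat.Agent.GP.Tan

variable (W : WeierstrassCurve ℤ) (p : ℕ) [hp : Fact p.Prime]
  (𝒪 : Type) [CommRing 𝒪] [IsLocalRing 𝒪] [Algebra ℤ_[p] 𝒪]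
  [hloc : IsLocalHom (algebraMap ℤ_[p] 𝒪)]

/-- **`T_p(W) ⊗_{ℤ_p} 𝒪`**. -/
noncomputable def rhoWO (hΔ : W.Δ ≠ 0) : GaloisRepAdic 𝒪 :=
  (rhoW W p hΔ).baseChangeAlong (algebraMap ℤ_[p] 𝒪) hloc

variable {W p 𝒪}

theorem rhoWO_def (hΔ : W.Δ ≠ 0) :
    rhoWO W p 𝒪 hΔ = (rhoW W p hΔ).baseChangeAlong (algebraMap ℤ_[p] 𝒪) hloc := rfl

theorem rhoWO_detIsCyclotomic (hΔ : W.Δ ≠ 0) (hirr : W.ModRepIsIrreducible p) :
    (rhoWO W p 𝒪 hΔ).DetIsCyclotomic p :=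
  detIsCyclotomic_baseChangeAlong _ hloc (rhoW_detIsCyclotomic hΔ hirr)

theorem rhoWO_isUnramifiedAt (hΔ : W.Δ ≠ 0) {q : ℕ} (hq : q.Prime) (hqp : q ≠ p)
    (hgood : W.IsGoodPrimeFor q) : (rhoWO W p 𝒪 hΔ).IsUnramifiedAt q :=
  isUnramifiedAt_baseChangeAlong _ hloc (rhoW_isUnramifiedAt hΔ hq hqp hgood)

theorem rhoWO_isUnipotentOnInertiaAt (hΔ : W.Δ ≠ 0) (hss : W.IsSemistableModel) {q : ℕ}
    (hq : q.Prime) (hqp : q ≠ p) : (rhoWO W p 𝒪 hΔ).IsUnipotentOnInertiaAt q :=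
  isUnipotentOnInertiaAt_baseChangeAlong _ hloc (rhoW_isUnipotentOnInertiaAt hΔ hss hq hqp)

/-- **`charpoly ρ_{W,𝒪}(Frob_ℓ) = X² − a_ℓ(W) X + ℓ`** at every good prime `ℓ ≠ p`. -/
theorem rhoWO_charpoly_frob (hΔ : W.Δ ≠ 0) (hirr : W.ModRepIsIrreducible p) {ℓ : ℕ}
    (hℓ : ℓ.Prime) (hℓp : ℓ ≠ p) (hgood : W.IsGoodPrimeFor ℓ) (A : ValuationSubring Qb)
    (hA : A.LiesOverPrime ℓ) (τ : GQ) (hτ : A.IsFrobeniusAt τ ℓ) :
    LinearMap.charpoly ((rhoWO W p 𝒪 hΔ).ρ τ) =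
      X ^ 2 - C (((W.apOfModel ℓ : ℤ) : 𝒪)) * X + C ((ℓ : ℕ) : 𝒪) := by
  rw [rhoWO_def, Fermat.Agent.GB.Def.Cond.charpoly_baseChangeAlong,
    rhoW_charpoly_frob hΔ hirr hℓ hℓp hgood A hA τ hτ]
  simp

/-- strict ordinarity at a multiplicative prime. -/
theorem rhoWO_isStrictOrdinaryAt (hΔ : W.Δ ≠ 0) (hpΔ : (p : ℤ) ∣ W.Δ) (hc₄ : ¬ (p : ℤ) ∣ W.c₄) :
    (rhoWO W p 𝒪 hΔ).IsStrictOrdinaryAt p :=
  isStrictOrdinaryAt_baseChangeAlong _ hloc (rhoW_isStrictOrdinaryAt hΔ hpΔ hc₄)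

/-- flatness over `𝒪` from flatness of `T_p(W)` (helper5 `GE7/FlatGood` at a good prime). -/
theorem rhoWO_isFlatAt (hΔ : W.Δ ≠ 0) (h𝒪 : Finite (ResidueField 𝒪))
    (hflat : (rhoW W p hΔ).IsFlatAt p) : (rhoWO W p 𝒪 hΔ).IsFlatAt p :=
  Fermat.Agent.GB.Def.CondFlat.isFlatAt_baseChangeAlong _ hloc h𝒪 hflat

/-! ### the packaged frozen conditions -/

/-- `S` contains `p` and the bad primes of `W`. -/
def Covers (W : WeierstrassCurve ℤ) (p : ℕ) (S : Finset ℕ) : Prop :=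
  ∀ q : ℕ, q.Prime → q ∉ S → q ≠ p ∧ W.IsGoodPrimeFor q

omit hp in
theorem covers_ecBad (hΔ : W.Δ ≠ 0) {S : Finset ℕ} (h : Fermat.Agent.GE.Top.ecBad W p ⊆ S) :
    Covers W p S := fun _ hq hqS =>
  Fermat.Agent.GE.ECAssembly.good_of_not_mem W hΔ hq fun hmem => hqS (h hmem)

/-- **[B] multiplicative `p`**: the strict-ordinary condition of the frozen S56 (any `S ⊇ {p} ∪ bad`,
any `Smin`) holds for `ρ_{W,𝒪}`. -/
theorem rhoWO_strictCond (hΔ : W.Δ ≠ 0) (hss : W.IsSemistableModel)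
    (hirr : W.ModRepIsIrreducible p) (hpΔ : (p : ℤ) ∣ W.Δ) {S : Finset ℕ} (hS : Covers W p S)
    (Smin : Finset ℕ) :
    GaloisRep.strictOrdinaryCondition 𝒪 p S (rhoWO W p 𝒪 hΔ) ∧
      ∀ q ∈ Smin, q.Prime → q ≠ p → (rhoWO W p 𝒪 hΔ).IsUnipotentOnInertiaAt q :=
  ⟨⟨rhoWO_detIsCyclotomic hΔ hirr, rhoWO_isStrictOrdinaryAt hΔ hpΔ (hss p hp.out hpΔ),
      fun q hq hqS => rhoWO_isUnramifiedAt hΔ hq (hS q hq hqS).1 (hS q hq hqS).2⟩,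
    fun _ _ hq hqp => rhoWO_isUnipotentOnInertiaAt hΔ hss hq hqp⟩

/-- **[A] good `p`**: the flat condition of the frozen S56 holds for `ρ_{W,𝒪}`, given
`(rhoW W p hΔ).IsFlatAt p`. -/
theorem rhoWO_flatCond (hΔ : W.Δ ≠ 0) (hss : W.IsSemistableModel)
    (hirr : W.ModRepIsIrreducible p) (h𝒪 : Finite (ResidueField 𝒪))
    (hflat : (rhoW W p hΔ).IsFlatAt p) {S : Finset ℕ} (hS : Covers W p S) (Smin : Finset ℕ) :
    GaloisRep.flatCondition 𝒪 p S (rhoWO W p 𝒪 hΔ) ∧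
      ∀ q ∈ Smin, q.Prime → q ≠ p → (rhoWO W p 𝒪 hΔ).IsUnipotentOnInertiaAt q :=
  ⟨⟨rhoWO_detIsCyclotomic hΔ hirr, rhoWO_isFlatAt hΔ h𝒪 hflat,
      fun q hq hqS => rhoWO_isUnramifiedAt hΔ hq (hS q hq hqS).1 (hS q hq hqS).2⟩,
    fun _ _ hq hqp => rhoWO_isUnipotentOnInertiaAt hΔ hss hq hqp⟩

end Fermat.Agent.GE7.DictW.Dict
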