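/-
S59 PRE-WORK / E7 DICT(W), curve side, file 6 (helper17): the dictionary in the vocabulary of the
ENGINE CONTRACT (helper10 `GE/Graph/RTStmt`): `ρ_{W,𝒪} = rhoWO W p 𝒪 hΔ` is of type
`condSO 𝒪 p Smin Sig` (multiplicative `p`) resp. `condFL 𝒪 p Smin Sig` (good `p`, given flatness of
`T_p(W)`) for the sets `Smin ∋ p`, `Sig` = bad primes outside `Smin` of `RTConcl`.
-/
import Fermat.Agent.GE7.DictW.Dict
import Fermat.Agent.GE.Graph.RTStmt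

set_option autoImplicit false

open scoped WeierstrassCurve.Affine
open Fermat.Agent.Common_helper32 PadicInt IsLocalRing Polynomial

namespace Fermat.Agent.GE7.DictW.DictPlug

open WeierstrassCurve Fermat.Agent.GE7.DictW.Inst Fermat.Agent.GE7.DictW.Dict
  Fermat.Agent.GE.Graph

variable {W : WeierstrassCurve ℤ} {p : ℕ} [hp : Fact p.Prime]
  {𝒪 : Type} [CommRing 𝒪] [IsLocalRing 𝒪] [Algebra ℤ_[p] 𝒪]
  [hloc : IsLocalHom (algebraMap ℤ_[p] 𝒪)]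

omit hp in
/-- the sets of `RTConcl` cover `p` and the bad primes. -/
theorem covers_of_sig {Smin Sig : Finset ℕ} (hpS : p ∈ Smin)
    (hSig : ∀ q : ℕ, q ∈ Sig ↔ q.Prime ∧ (q : ℤ) ∣ W.Δ ∧ q ∉ Smin) :
    Covers W p (Smin ∪ Sig) := by
  intro q hq hqS
  rw [Finset.mem_union, not_or] at hqS
  refine ⟨fun h => hqS.1 (h ▸ hpS), fun hbad => hqS.2 ((hSig q).mpr ⟨hq, hbad, hqS.1⟩)⟩

/-- **[B]** `ρ_{W,𝒪}` is of type `𝒟^{so}_Σ` at a multiplicative prime `p`. -/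
theorem condSO_rhoWO (hΔ : W.Δ ≠ 0) (hss : W.IsSemistableModel) (hirr : W.ModRepIsIrreducible p)
    (hpΔ : (p : ℤ) ∣ W.Δ) {Smin Sig : Finset ℕ} (hpS : p ∈ Smin)
    (hSig : ∀ q : ℕ, q ∈ Sig ↔ q.Prime ∧ (q : ℤ) ∣ W.Δ ∧ q ∉ Smin) :
    condSO 𝒪 p Smin Sig (rhoWO W p 𝒪 hΔ) :=
  rhoWO_strictCond hΔ hss hirr hpΔ (covers_of_sig hpS hSig) Smin

/-- **[A]** `ρ_{W,𝒪}` is of type `𝒟^{fl}_Σ` at a good prime `p`, given `(rhoW W p hΔ).IsFlatAt p`. -/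
theorem condFL_rhoWO (hΔ : W.Δ ≠ 0) (hss : W.IsSemistableModel) (hirr : W.ModRepIsIrreducible p)
    (h𝒪 : Finite (ResidueField 𝒪)) (hflat : (rhoW W p hΔ).IsFlatAt p) {Smin Sig : Finset ℕ}
    (hpS : p ∈ Smin) (hSig : ∀ q : ℕ, q ∈ Sig ↔ q.Prime ∧ (q : ℤ) ∣ W.Δ ∧ q ∉ Smin) :
    condFL 𝒪 p Smin Sig (rhoWO W p 𝒪 hΔ) :=
  rhoWO_flatCond hΔ hss hirr h𝒪 hflat (covers_of_sig hpS hSig) Smin

/-- coefficient comparison: a point `χ` with `charpoly ρ_{W,𝒪}(Frob_ℓ) = X² − c X + ℓ` has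
`c = a_ℓ(W)`. -/
theorem eq_ap_of_charpoly (hΔ : W.Δ ≠ 0) (hirr : W.ModRepIsIrreducible p) {ℓ : ℕ}
    (hℓ : ℓ.Prime) (hℓp : ℓ ≠ p) (hgood : W.IsGoodPrimeFor ℓ) (A : ValuationSubring Qb)
    (hA : A.LiesOverPrime ℓ) (τ : GQ) (hτ : A.IsFrobeniusAt τ ℓ) (c : 𝒪)
    (h : LinearMap.charpoly ((rhoWO W p 𝒪 hΔ).ρ τ) = X ^ 2 - C c * X + C ((ℓ : ℕ) : 𝒪)) :
    c = ((W.apOfModel ℓ : ℤ) : 𝒪) := by
  rw [rhoWO_charpoly_frob hΔ hirr hℓ hℓp hgood A hA τ hτ] at h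
  have h1 := congrArg (fun P : 𝒪[X] => P.coeff 1) h
  simp only [coeff_add, coeff_sub, coeff_X_pow, coeff_C_mul, coeff_X_one, mul_one, coeff_C] at h1
  simpa using h1.symm

end Fermat.Agent.GE7.DictW.DictPlug
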