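/-
S59 pre-work / node E7 DICT(W) (helper17): **RELATION FORM ⟹ CHARPOLY FORM** for an adic Galois
representation, Weil-pairing free.

`ρ : GaloisRepAdic T` (`T` Noetherian local, `p ∈ 𝔪`), `B ∋ p` a finite set of primes, `t : ℕ → T`.
Hypotheses:
* `hrel` : `ρ(τ)² − t_ℓ ρ(τ) + ℓ = 0` for every Frobenius lift `τ` at a prime `ℓ ∉ B`
  (for `ρ = T_p W` this is `GE/Top/ECFinal.frobRel` transported to the Tate module);
* `hns`  : some `ρ(g₀)` is not scalar modulo `𝔪` (`IsCyc (ρ g₀) x₀`; e.g. `ρ̄` irreducible).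
Conclusions:
* `det_sub_mem`     : `det ρ(g) ≡ a mod (p ^ n)` whenever `χ_cyc(g) ≡ a mod p ^ n`;
* `detIsCyclotomic` : the frozen `ρ.DetIsCyclotomic p`;
* `det_frob`, `trace_frob`, `charpoly_frob` : `charpoly ρ(τ) = X² − t_ℓ X + ℓ` at all `ℓ ∉ B`.

Proof: Chebotarev (conjugacy form, `GP/TW/ChebExist`) for `(ρ mod 𝔪 ^ k) × (χ mod p ^ n)`: a `g` with
`ρ(g)` cyclic modulo `𝔪` is conjugate, at that level, to a Frobenius lift `τ`, which is then cyclic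
too, hence has `det ρ(τ) = ℓ` by the quadratic relation (`CyclicAbs`).  The non-cyclic `g` are
reached through `g₀ g`.  Krull's intersection theorem finishes.
-/
import Mathlib
import Fermat.Agent.GE7.DictW.CyclicAbs
import Fermat.Agent.GS.DetCyc
import Fermat.Agent.GS.AlgUniform
import Fermat.Agent.GP.TW.ChebExist
import Fermat.Agent.S54_helper86.Frobenius

set_option autoImplicit false
set_option linter.unusedSectionVars false

open Polynomial Module IsLocalRing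
open Fermat.Agent.Common_helper32 Fermat.Agent.GJ.Tate Fermat.Agent.GK.Tate
open Fermat.Agent.GE7.DictW.CyclicAbs

namespace Fermat.Agent.GE7.DictW.RelCharpoly

section Reduction

open Fermat.Agent.GJ.Tate.Carayol

variable {T : Type*} [CommRing T] (I : Ideal T) {V : Type*} [AddCommGroup V]
    [Module T V] [Module.Free T V] [Module.Finite T V]

/-- equal reductions modulo `I` ⟹ congruent modulo `I V`. -/
theorem sub_mem_of_redMat_eq {f f' : Module.End T V} (h : redMat I V f = redMat I V f')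
    (v : V) : f v - f' v ∈ I • (⊤ : Submodule T V) := by
  classical
  set b := Free.chooseBasis T V with hb
  have hj : ∀ j, f (b j) - f' (b j) ∈ I • (⊤ : Submodule T V) := by
    intro j
    rw [← b.sum_repr (f (b j) - f' (b j))]
    refine Submodule.sum_mem _ fun i _ => ?_
    refine Submodule.smul_mem_smul ?_ trivial
    have h1 := congrFun (congrFun h i) j
    rw [redMat_apply, redMat_apply, Ideal.Quotient.eq] at h1
    rw [map_sub, Finsupp.sub_apply]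
    exact h1
  rw [← b.sum_repr v, map_sum, map_sum, ← Finset.sum_sub_distrib]
  refine Submodule.sum_mem _ fun j _ => ?_
  rw [map_smul, map_smul, ← smul_sub]
  exact Submodule.smul_mem _ _ (hj j)

end Reduction

section Main

variable {p : ℕ} [Fact p.Prime] {T : Type} [CommRing T] [IsLocalRing T] [IsNoetherianRing T]
  (ρ : GaloisRepAdic T) (B : Finset ℕ) (hpB : p ∈ B) (hpT : (p : T) ∈ maximalIdeal T)
  (t : ℕ → T)
  (hrel : ∀ ℓ : ℕ, ℓ.Prime → ℓ ∉ B → ∀ A : ValuationSubring Qb, A.LiesOverPrime ℓ →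
    ∀ τ : GQ, A.IsFrobeniusAt τ ℓ →
      ρ.ρ τ * ρ.ρ τ - t ℓ • ρ.ρ τ + (ℓ : T) • (1 : Module.End T ρ.V) = 0)

/-- the inverse of `ρ(h)`. -/
theorem rho_mul_inv (h : GQ) : ρ.ρ h * ρ.ρ h⁻¹ = 1 := by
  rw [← map_mul, mul_inv_cancel, map_one]

theorem rho_inv_mul (h : GQ) : ρ.ρ h⁻¹ * ρ.ρ h = 1 := by
  rw [← map_mul, inv_mul_cancel, map_one]

theorem isUnit_det (g : GQ) : IsUnit (LinearMap.det (ρ.ρ g)) := by
  refine IsUnit.of_mul_eq_one (LinearMap.det (ρ.ρ g⁻¹)) ?_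
  rw [← map_mul, rho_mul_inv, map_one]

theorem det_conj (h g : GQ) : LinearMap.det (ρ.ρ (h * g * h⁻¹)) = LinearMap.det (ρ.ρ g) := by
  rw [map_mul, map_mul, map_mul, map_mul, mul_right_comm, ← map_mul LinearMap.det, rho_mul_inv,
    map_one, one_mul]

include hpB hrel in
/-- **level statement for a cyclic element.** -/
theorem det_sub_mem_of_isCyc (g : GQ) (x : ρ.V) (hx : IsCyc (ρ.ρ g) x) (n k a : ℕ)
    (ha : ((cycMod p n g : (ZMod (p ^ n))ˣ) : ZMod (p ^ n)) = (a : ZMod (p ^ n))) :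
    LinearMap.det (ρ.ρ g) - (a : T) ∈ Ideal.span {((p ^ n : ℕ) : T)} ⊔ maximalIdeal T ^ k := by
  classical
  obtain ⟨ℓ, hℓ, hℓB, hall⟩ := Fermat.Agent.GP.TW.ChebExist.exists_prime_forall_frob
    ((redRho ρ (k + 1)).prod (cycMod p n))
    (factorsThroughFiniteLevel_prod (redRho_factors ρ (k + 1)) (cycMod_level p n)) g B
  obtain ⟨A, τ, hA, hτ⟩ := Fermat.Agent.S54_helper86.exists_isFrobeniusAt hℓ
  obtain ⟨h, hh⟩ := hall A τ hA hτ
  rw [MonoidHom.prod_apply, MonoidHom.prod_apply, Prod.mk.injEq] at hh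
  obtain ⟨h1, h2⟩ := hh
  have hℓp : ℓ ≠ p := fun e => hℓB (e ▸ hpB)
  rw [redRho_apply, redRho_apply] at h1
  -- `ρ τ ≡ ρ (h g h⁻¹)` modulo `𝔪`
  have hcong : ∀ v, ρ.ρ τ v - ρ.ρ (h * g * h⁻¹) v ∈ maximalIdeal T • (⊤ : Submodule T ρ.V) := by
    intro v
    have := sub_mem_of_redMat_eq _ h1 v
    exact Submodule.smul_mono_left (Ideal.pow_le_self (Nat.succ_ne_zero k)) this
  -- `ρ τ` is cyclic
  have hcyc : IsCyc (ρ.ρ τ) (ρ.ρ h x) := by
    have h3 : IsCyc (ρ.ρ (h * g * h⁻¹)) (ρ.ρ h x) := by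
      rw [map_mul, map_mul]
      exact hx.conj (rho_mul_inv ρ h) (rho_inv_mul ρ h)
    exact h3.congr hcong
  have hdetτ : LinearMap.det (ρ.ρ τ) = (ℓ : T) :=
    (hcyc.trace_det ρ.finrank_eq (hrel ℓ hℓ hℓB A hA τ hτ)).2
  -- `det ρ g ≡ ℓ` modulo `𝔪 ^ (k+1)`
  have hdet : LinearMap.det (ρ.ρ g) - (ℓ : T) ∈ maximalIdeal T ^ k := by
    have t1 := congrArg Matrix.det h1
    rw [det_redMat, det_redMat, hdetτ, det_conj] at t1
    have := Ideal.Quotient.eq.mp t1.symm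
    exact Ideal.pow_le_pow_right (Nat.le_succ k) this
  -- `ℓ ≡ a` modulo `p ^ n`
  have hcycl : ((ℓ : ℕ) : ZMod (p ^ n)) = (a : ZMod (p ^ n)) := by
    have h4 : cycMod p n (h * g * h⁻¹) = cycMod p n g := by
      rw [map_mul, map_mul, map_inv, mul_comm, ← mul_assoc, inv_mul_cancel, one_mul]
    rw [← ha, ← h4, ← h2, cycMod_frob p n A ℓ hℓ hA hℓp τ hτ]
  have hla : ((ℓ : ℕ) : T) - (a : T) ∈ Ideal.span {((p ^ n : ℕ) : T)} :=
    Fermat.Agent.GS.DetCyc.natCast_sub_mem_span_of_zmod_eq hcycl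
  have e : LinearMap.det (ρ.ρ g) - (a : T) =
      (((ℓ : ℕ) : T) - (a : T)) + (LinearMap.det (ρ.ρ g) - (ℓ : T)) := by ring
  rw [e]
  exact Submodule.add_mem_sup hla hdet

variable (hns : ∃ (g₀ : GQ) (x₀ : ρ.V), IsCyc (ρ.ρ g₀) x₀)

include hpB hrel hns in
/-- **level statement for every element.** -/
theorem det_sub_mem_sup (g : GQ) (n k a : ℕ)
    (ha : ((cycMod p n g : (ZMod (p ^ n))ˣ) : ZMod (p ^ n)) = (a : ZMod (p ^ n))) :
    LinearMap.det (ρ.ρ g) - (a : T) ∈ Ideal.span {((p ^ n : ℕ) : T)} ⊔ maximalIdeal T ^ k := by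
  obtain ⟨g₀, x₀, h₀⟩ := hns
  rcases isCyc_or_isCyc_mul ρ.finrank_eq h₀ (rho_inv_mul ρ g) with h | h
  · exact det_sub_mem_of_isCyc ρ B hpB t hrel g x₀ h n k a ha
  · -- use `g₀` and `g₀ g`
    set a₀ : ℕ := ((cycMod p n g₀ : (ZMod (p ^ n))ˣ) : ZMod (p ^ n)).val with ha₀
    have hp : p.Prime := Fact.out
    have : NeZero (p ^ n) := ⟨pow_ne_zero n hp.ne_zero⟩
    have hc₀ : ((cycMod p n g₀ : (ZMod (p ^ n))ˣ) : ZMod (p ^ n)) = (a₀ : ZMod (p ^ n)) := by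
      rw [ha₀, ZMod.natCast_zmod_val]
    have hc₁ : ((cycMod p n (g₀ * g) : (ZMod (p ^ n))ˣ) : ZMod (p ^ n)) =
        ((a₀ * a : ℕ) : ZMod (p ^ n)) := by
      rw [map_mul, Units.val_mul, hc₀, ha, Nat.cast_mul]
    have h1 := det_sub_mem_of_isCyc ρ B hpB t hrel g₀ x₀ h₀ n k a₀ hc₀
    have h2 := det_sub_mem_of_isCyc ρ B hpB t hrel (g₀ * g) x₀ (by rw [map_mul]; exact h) n k
      (a₀ * a) hc₁
    set J := Ideal.span {((p ^ n : ℕ) : T)} ⊔ maximalIdeal T ^ k with hJ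
    -- `det ρ g₀ * (det ρ g − a) ∈ J`
    have h3 : LinearMap.det (ρ.ρ g₀) * (LinearMap.det (ρ.ρ g) - (a : T)) ∈ J := by
      have e : LinearMap.det (ρ.ρ g₀) * (LinearMap.det (ρ.ρ g) - (a : T)) =
          (LinearMap.det (ρ.ρ (g₀ * g)) - ((a₀ * a : ℕ) : T))
            - (LinearMap.det (ρ.ρ g₀) - (a₀ : T)) * (a : T) := by
        rw [map_mul, map_mul, Nat.cast_mul]
        ring
      rw [e]
      exact J.sub_mem h2 (J.mul_mem_right _ h1)
    obtain ⟨u, hu⟩ := isUnit_det ρ g₀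
    have e : LinearMap.det (ρ.ρ g) - (a : T) =
        (↑u⁻¹ : T) * (LinearMap.det (ρ.ρ g₀) * (LinearMap.det (ρ.ρ g) - (a : T))) := by
      rw [← hu, ← mul_assoc, Units.inv_mul, one_mul]
    rw [e]
    exact J.mul_mem_left _ h3

include hpB hrel hns in
/-- `det ρ(g) ≡ a mod p ^ n` whenever `χ_cyc(g) ≡ a mod p ^ n`. -/
theorem det_sub_mem (g : GQ) (n a : ℕ)
    (ha : ((cycMod p n g : (ZMod (p ^ n))ˣ) : ZMod (p ^ n)) = (a : ZMod (p ^ n))) :
    LinearMap.det (ρ.ρ g) - (a : T) ∈ Ideal.span {((p ^ n : ℕ) : T)} :=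
  Fermat.Agent.GS.DetCyc.mem_of_forall_mem_sup_pow _ _
    (fun k => det_sub_mem_sup ρ B hpB t hrel hns g n k a ha)

include hpB hpT hrel hns in
/-- **the frozen predicate.** -/
theorem detIsCyclotomic : ρ.DetIsCyclotomic p :=
  ⟨hpT, fun n σ a h => det_sub_mem ρ B hpB t hrel hns σ n a
    (Fermat.Agent.GS.DetCyc.cycMod_eq_of_forall p n σ a h)⟩

include hpB hpT hrel hns in
/-- `det ρ(Frob_ℓ) = ℓ` at every `ℓ ∉ B`. -/
theorem det_frob (ℓ : ℕ) (hℓ : ℓ.Prime) (hℓB : ℓ ∉ B) (A : ValuationSubring Qb)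
    (hA : A.LiesOverPrime ℓ) (τ : GQ) (hτ : A.IsFrobeniusAt τ ℓ) :
    LinearMap.det (ρ.ρ τ) = (ℓ : T) := by
  have hℓp : ℓ ≠ p := fun e => hℓB (e ▸ hpB)
  rw [← sub_eq_zero]
  have hmem : LinearMap.det (ρ.ρ τ) - (ℓ : T) ∈ (⨅ n : ℕ, maximalIdeal T ^ n) := by
    rw [Ideal.mem_iInf]
    intro n
    have h1 := det_sub_mem ρ B hpB t hrel hns τ n ℓ (cycMod_frob p n A ℓ hℓ hA hℓp τ hτ)
    have h2 : Ideal.span {((p ^ n : ℕ) : T)} ≤ maximalIdeal T ^ n := by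
      rw [Ideal.span_singleton_le_iff_mem, Nat.cast_pow]
      exact Ideal.pow_mem_pow hpT n
    exact h2 h1
  rw [Ideal.iInf_pow_eq_bot_of_isLocalRing _ (maximalIdeal.isMaximal T).ne_top] at hmem
  exact hmem

include hpB hpT hrel hns in
/-- `tr ρ(Frob_ℓ) = t_ℓ` at every `ℓ ∉ B`. -/
theorem trace_frob (ℓ : ℕ) (hℓ : ℓ.Prime) (hℓB : ℓ ∉ B) (A : ValuationSubring Qb)
    (hA : A.LiesOverPrime ℓ) (τ : GQ) (hτ : A.IsFrobeniusAt τ ℓ) :
    LinearMap.trace T ρ.V (ρ.ρ τ) = t ℓ := by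
  have hdet := det_frob ρ B hpB hpT t hrel hns ℓ hℓ hℓB A hA τ hτ
  have hCH := Fermat.Agent.GS.AlgUniform.sq_sub_trace_add_det ρ.finrank_eq (ρ.ρ τ)
  have hr := hrel ℓ hℓ hℓB A hA τ hτ
  rw [hdet] at hCH
  -- `(tr − t) ρ(τ) = 0`
  have h1 : (LinearMap.trace T ρ.V (ρ.ρ τ) - t ℓ) • ρ.ρ τ = 0 := by
    have : (LinearMap.trace T ρ.V (ρ.ρ τ) - t ℓ) • ρ.ρ τ =
        (ρ.ρ τ * ρ.ρ τ - t ℓ • ρ.ρ τ + (ℓ : T) • (1 : Module.End T ρ.V))
          - (ρ.ρ τ * ρ.ρ τ - LinearMap.trace T ρ.V (ρ.ρ τ) • ρ.ρ τ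
            + (ℓ : T) • (1 : Module.End T ρ.V)) := by
      rw [sub_smul]; abel
    rw [this, hr, hCH, sub_zero]
  have h2 : (LinearMap.trace T ρ.V (ρ.ρ τ) - t ℓ) • (1 : Module.End T ρ.V) = 0 := by
    have := congrArg (· * ρ.ρ τ⁻¹) h1
    simp only [smul_mul_assoc, zero_mul] at this
    rwa [rho_mul_inv] at this
  have h3 : LinearMap.trace T ρ.V ((LinearMap.trace T ρ.V (ρ.ρ τ) - t ℓ) •
      (1 : Module.End T ρ.V)) = 0 := by rw [h2, map_zero]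
  -- apply `det`: `(tr − t)² = 0` is not enough; use a basis vector instead
  have hb := Module.finBasisOfFinrankEq T ρ.V ρ.finrank_eq
  have h4 := LinearMap.congr_fun h2 (hb 0)
  rw [LinearMap.smul_apply, Module.End.one_apply, LinearMap.zero_apply] at h4
  have h5 := congrArg (fun v => hb.repr v 0) h4
  simp only [map_smul, Finsupp.smul_apply, Basis.repr_self, Finsupp.single_eq_same, smul_eq_mul,
    mul_one, map_zero, Finsupp.zero_apply] at h5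
  exact sub_eq_zero.mp h5

include hpB hpT hrel hns in
/-- **charpoly form**: `charpoly ρ(Frob_ℓ) = X² − t_ℓ X + ℓ` at every `ℓ ∉ B`. -/
theorem charpoly_frob (ℓ : ℕ) (hℓ : ℓ.Prime) (hℓB : ℓ ∉ B) (A : ValuationSubring Qb)
    (hA : A.LiesOverPrime ℓ) (τ : GQ) (hτ : A.IsFrobeniusAt τ ℓ) :
    LinearMap.charpoly (ρ.ρ τ) = X ^ 2 - C (t ℓ) * X + C ((ℓ : T)) := by
  classical
  have hdet := det_frob ρ B hpB hpT t hrel hns ℓ hℓ hℓB A hA τ hτ
  have htr := trace_frob ρ B hpB hpT t hrel hns ℓ hℓ hℓB A hA τ hτ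
  let b : Module.Basis (Fin 2) T ρ.V := Module.finBasisOfFinrankEq T ρ.V ρ.finrank_eq
  rw [← LinearMap.charpoly_toMatrix (ρ.ρ τ) b, Matrix.charpoly_fin_two,
    ← LinearMap.trace_eq_matrix_trace T b (ρ.ρ τ), LinearMap.det_toMatrix b (ρ.ρ τ), htr, hdet]

end Main

end Fermat.Agent.GE7.DictW.RelCharpoly
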