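/-
S59 PRE-WORK / E7 DICT(W), residual clause over the coefficient ring (helper64): **`hres` of
`GE/Graph/RTStmt.RTData.exists_point` for `ρ₀ := rhoWO W p 𝒪 hΔ`, in the EXACT spelling of the
engine contract `GE/Graph/RTStmtW.RTConcl`** (there `ρbar` is
`ρ̄_{W,p}.baseChange (ResidueField 𝒪)` for an ARBITRARY instance `Algebra (ZMod p) (ResidueField 𝒪)`).

* `baseChange_isEquiv_of_algebraMap_eq` : `ρ.baseChange k'` does not depend on the `Algebra k k'`
  instance (two instances with the same `algebraMap` are equal);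
* `baseChange_isEquiv_baseChangeAlong` : `(ρ.baseChange k').IsEquiv (ρ.baseChangeAlong (algebraMap k k'))`;
* **`rhoWO_residual_isEquiv`** : `(rhoWO W p 𝒪 hΔ).residual.IsEquiv
    ((ρ̄_{W,p}.baseChange (ResidueField 𝒪)).baseChangeAlong (ResidueField.map (algebraMap 𝒪 𝒪)))`.
-/
import Fermat.Agent.GE7.DictW.Dict
import Fermat.Agent.GE7.TateAbs.ResidualW

set_option autoImplicit false

open scoped WeierstrassCurve.Affine
open PadicInt IsLocalRing

namespace Fermat.Agent.GE7.DictW.ResidualO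

open WeierstrassCurve Fermat.Agent.GE7.DictW.Inst Fermat.Agent.GE7.DictW.Dict
  Fermat.Agent.GE7.TateAbs

section Inst

variable {k k' : Type} [Field k] [Field k']

/-- the base change of a residual representation does not depend on the `Algebra` instance. -/
theorem baseChange_isEquiv_of_algebraMap_eq (i₁ i₂ : Algebra k k')
    (h : ∀ r : k, @algebraMap k k' _ _ i₁ r = @algebraMap k k' _ _ i₂ r)
    (ρ : ResidualGaloisRep k) :
    (@ResidualGaloisRep.baseChange k _ k' _ i₁ ρ).IsEquiv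
      (@ResidualGaloisRep.baseChange k _ k' _ i₂ ρ) := by
  have e : i₁ = i₂ := Algebra.algebra_ext _ _ h
  subst e
  exact ⟨ResidualGaloisRep.Equiv.refl _⟩

/-- `baseChange` (instance form) versus `baseChangeAlong` (ring hom form). -/
theorem baseChange_isEquiv_baseChangeAlong [i : Algebra k k'] (ρ : ResidualGaloisRep k) :
    (ρ.baseChange k').IsEquiv (ρ.baseChangeAlong (algebraMap k k')) :=
  baseChange_isEquiv_of_algebraMap_eq i (algebraMap k k').toAlgebra (fun _ => rfl) ρ

end Inst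

variable {W : WeierstrassCurve ℤ} {p : ℕ} [hp : Fact p.Prime]
  {𝒪 : Type} [CommRing 𝒪] [IsLocalRing 𝒪] [Algebra ℤ_[p] 𝒪]
  [hloc : IsLocalHom (algebraMap ℤ_[p] 𝒪)]

/-- **the residual clause of DICT(W) over `𝒪`**, in the spelling of `RTConcl` / frozen S54 `hres`
(`A := 𝒪`). -/
theorem rhoWO_residual_isEquiv (hΔ : W.Δ ≠ 0)
    (hcard₁ : Nat.card (Submodule.torsionBy ℤ
      ((W.map (Int.castRingHom ℚ))⁄(AlgebraicClosure ℚ)).Point p) = p ^ 2)
    (hker : GaloisFactorsThroughFiniteLevel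
      (WeierstrassCurve.Affine.Point.galoisRepModuleEnd (K := AlgebraicClosure ℚ) ℚ
        (W.map (Int.castRingHom ℚ)) p))
    [Algebra (ZMod p) (ResidueField 𝒪)] :
    (rhoWO W p 𝒪 hΔ).residual.IsEquiv
      ((((W.map (Int.castRingHom ℚ)).residualGaloisRepOf p hcard₁ hker).baseChange
        (ResidueField 𝒪)).baseChangeAlong (ResidueField.map (algebraMap 𝒪 𝒪))) := by
  obtain ⟨e1⟩ := residual_baseChangeAlong_tateRepW_isEquiv_tower hcard₁ hker (card_lvl W p hΔ)
    (levelFinite W p hΔ) (algebraMap (ZMod p) (ResidueField 𝒪)) (A := 𝒪)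
    (algebraMap ℤ_[p] 𝒪) hloc
  obtain ⟨e2⟩ := baseChange_isEquiv_baseChangeAlong (k' := ResidueField 𝒪)
    ((W.map (Int.castRingHom ℚ)).residualGaloisRepOf p hcard₁ hker)
  exact ⟨e1.trans (ResidualGaloisRep.Equiv.baseChangeAlong
    (ResidueField.map (algebraMap 𝒪 𝒪)) e2).symm⟩

end Fermat.Agent.GE7.DictW.ResidualO
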